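import Fermat.Agent.S20.P1
import Fermat.Prelude.Def_ModularCurve_GenusNumerics

/-!
# S20-c1 : `[SL(2,ℤ) : Γ₀(N)] = ψ(N)`
-/

set_option autoImplicit false

namespace Fermat.Agent.S20

open CongruenceSubgroup
open scoped MatrixGroups

namespace PartC1

open P1

theorem exists_eq_mul_of_mem {N : ℕ} {g : SL(2, ℤ)} (hg : g ∈ Gamma0 N) :
    ∃ c₁ : ℤ, g 1 0 = N * c₁ := by
  rw [Gamma0_mem, ZMod.intCast_zmod_eq_zero_iff_dvd] at hg
  exact hg

/-- the invariant separating the cosets of `Γ₀(Np)` in `Γ₀(N)` -/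
noncomputable def kap (N p : ℕ) [Fact p.Prime] (g : Gamma0 N) : Option (ZMod p) :=
  if (((g : SL(2, ℤ)) 0 0 : ℤ) : ZMod p) = 0 then none
  else some ((((g : SL(2, ℤ)) 1 0 / (N : ℤ) : ℤ) : ZMod p) / (((g : SL(2, ℤ)) 0 0 : ℤ) : ZMod p))

theorem kap_iff (N p : ℕ) [NeZero N] [Fact p.Prime] (g g' : Gamma0 N) :
    kap N p g = kap N p g' ↔ g⁻¹ * g' ∈ (Gamma0 (N * p)).subgroupOf (Gamma0 N) := by
  obtain ⟨c₁, hc₁⟩ := exists_eq_mul_of_mem g.2
  obtain ⟨c₁', hc₁'⟩ := exists_eq_mul_of_mem g'.2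
  have hN : (N : ℤ) ≠ 0 := by exact_mod_cast NeZero.ne N
  have hdiv : (g : SL(2, ℤ)) 1 0 / (N : ℤ) = c₁ := by rw [hc₁, Int.mul_ediv_cancel_left _ hN]
  have hdiv' : (g' : SL(2, ℤ)) 1 0 / (N : ℤ) = c₁' := by rw [hc₁', Int.mul_ediv_cancel_left _ hN]
  have hdet := det_eq (g : SL(2, ℤ))
  have hdet' := det_eq (g' : SL(2, ℤ))
  set a := (g : SL(2, ℤ)) 0 0 with ha
  set a' := (g' : SL(2, ℤ)) 0 0 with ha'
  -- non-degeneracy
  have hnd : ¬ ((a : ZMod p) = 0 ∧ (c₁ : ZMod p) = 0) := by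
    rintro ⟨h1, h2⟩
    have := congrArg (Int.cast : ℤ → ZMod p) hdet
    rw [hc₁] at this
    push_cast at this
    rw [h1, h2] at this
    simp at this
  have hnd' : ¬ ((a' : ZMod p) = 0 ∧ (c₁' : ZMod p) = 0) := by
    rintro ⟨h1, h2⟩
    have := congrArg (Int.cast : ℤ → ZMod p) hdet'
    rw [hc₁'] at this
    push_cast at this
    rw [h1, h2] at this
    simp at this
  have hmem : g⁻¹ * g' ∈ (Gamma0 (N * p)).subgroupOf (Gamma0 N) ↔
      (a : ZMod p) * c₁' - c₁ * a' = 0 := by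
    rw [Subgroup.mem_subgroupOf, Gamma0_mem]
    have h1 : ((g⁻¹ * g' : Gamma0 N) : SL(2, ℤ)) 1 0 = (N : ℤ) * (a * c₁' - c₁ * a') := by
      rw [Subgroup.coe_mul, Subgroup.coe_inv, inv_mul_one_zero, hc₁, hc₁']
      ring
    rw [h1, ZMod.intCast_zmod_eq_zero_iff_dvd]
    push_cast
    rw [mul_dvd_mul_iff_left hN, ← ZMod.intCast_zmod_eq_zero_iff_dvd]
    push_cast
    rfl
  rw [hmem]
  unfold kap
  rw [hdiv, hdiv', ← ha, ← ha']
  by_cases h0 : (a : ZMod p) = 0
  · have hc : (c₁ : ZMod p) ≠ 0 := fun h => hnd ⟨h0, h⟩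
    by_cases h0' : (a' : ZMod p) = 0
    · simp [h0, h0']
    · simp [h0, h0', hc]
  · by_cases h0' : (a' : ZMod p) = 0
    · have hc' : (c₁' : ZMod p) ≠ 0 := fun h => hnd' ⟨h0', h⟩
      simp [h0, h0', hc']
    · simp only [h0, h0', if_false, Option.some.injEq]
      rw [div_eq_div_iff h0 h0', sub_eq_zero]
      constructor
      · intro h; rw [mul_comm, ← h]
      · intro h; rw [mul_comm (c₁' : ZMod p), h]

/-- the lower unipotent element `[[1,0],[c,1]]` -/
def lowerUni (c : ℤ) : SL(2, ℤ) := ⟨!![1, 0; c, 1], by simp [Matrix.det_fin_two_of]⟩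

theorem lowerUni_mem (N : ℕ) (t : ℤ) : lowerUni (N * t) ∈ Gamma0 N := by
  rw [Gamma0_mem]
  simp [lowerUni]

theorem kap_lowerUni (N p : ℕ) [NeZero N] [Fact p.Prime] (t : ℤ) :
    kap N p ⟨lowerUni (N * t), lowerUni_mem N t⟩ = some (t : ZMod p) := by
  have hN : (N : ℤ) ≠ 0 := by exact_mod_cast NeZero.ne N
  have h : (N : ℤ) * t / (N : ℤ) = t := Int.mul_ediv_cancel_left _ hN
  simp [kap, lowerUni, h]

theorem some_mem_range_kap (N p : ℕ) [NeZero N] [Fact p.Prime] (t : ZMod p) :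
    some t ∈ Set.range (kap N p) := by
  obtain ⟨t', rfl⟩ := ZMod.intCast_surjective t
  exact ⟨_, kap_lowerUni N p t'⟩

theorem range_kap_of_dvd (N p : ℕ) [NeZero N] [Fact p.Prime] (hpN : p ∣ N) :
    Set.range (kap N p) = Set.range (some : ZMod p → Option (ZMod p)) := by
  apply Set.Subset.antisymm
  · rintro _ ⟨g, rfl⟩
    obtain ⟨c₁, hc₁⟩ := exists_eq_mul_of_mem g.2
    have hdet := det_eq (g : SL(2, ℤ))
    have h0 : (((g : SL(2, ℤ)) 0 0 : ℤ) : ZMod p) ≠ 0 := by
      intro h0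
      have := congrArg (Int.cast : ℤ → ZMod p) hdet
      rw [hc₁] at this
      push_cast at this
      have hN0 : (N : ZMod p) = 0 := (ZMod.natCast_eq_zero_iff N p).mpr hpN
      rw [h0, hN0] at this
      simp at this
    unfold kap
    rw [if_neg h0]
    exact ⟨_, rfl⟩
  · rintro _ ⟨t, rfl⟩
    exact some_mem_range_kap N p t

theorem range_kap_of_not_dvd (N p : ℕ) [NeZero N] [Fact p.Prime] (hpN : ¬ p ∣ N) :
    Set.range (kap N p) = Set.univ := by
  apply Set.eq_univ_of_forall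
  rintro (_ | t)
  · have hp : p.Prime := Fact.out
    have hcop : IsCoprime (p : ℤ) (N : ℤ) := by
      rw [Nat.isCoprime_iff_coprime]
      exact (Nat.Prime.coprime_iff_not_dvd hp).mpr hpN
    obtain ⟨u, v, huv⟩ := hcop
    let g : SL(2, ℤ) := ⟨!![(p : ℤ), -v; (N : ℤ), u], by
      rw [Matrix.det_fin_two_of]; linear_combination huv⟩
    have hg : g ∈ Gamma0 N := by
      rw [Gamma0_mem]
      simp [g]
    refine ⟨⟨g, hg⟩, ?_⟩
    simp [kap, g]
  · exact some_mem_range_kap N p t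

theorem relIndex_Gamma0 (N p : ℕ) [NeZero N] (hp : p.Prime) :
    (Gamma0 (N * p)).relIndex (Gamma0 N) = if p ∣ N then p else p + 1 := by
  have : Fact p.Prime := ⟨hp⟩
  have h1 : (Gamma0 (N * p)).relIndex (Gamma0 N) = Nat.card (Set.range (kap N p)) :=
    index_eq_card_range _ (kap N p) (kap_iff N p)
  rw [h1]
  split_ifs with hpN
  · rw [range_kap_of_dvd N p hpN, Nat.card_range_of_injective (Option.some_injective _),
      Nat.card_zmod]
  · rw [range_kap_of_not_dvd N p hpN, Nat.card_univ, Finite.card_option, Nat.card_zmod]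

theorem Gamma0_mul_le (N p : ℕ) : Gamma0 (N * p) ≤ Gamma0 N := by
  intro g hg
  rw [Gamma0_mem, ZMod.intCast_zmod_eq_zero_iff_dvd] at hg ⊢
  refine dvd_trans ?_ hg
  push_cast
  exact dvd_mul_right _ _

theorem index_Gamma0_mul (N p : ℕ) [NeZero N] (hp : p.Prime) :
    (Gamma0 (N * p)).index = (if p ∣ N then p else p + 1) * (Gamma0 N).index := by
  rw [← relIndex_Gamma0 N p hp, Subgroup.relIndex_mul_index (Gamma0_mul_le N p)]

open ModularCurve in
theorem dedekindPsi_mul_of_dvd (N p : ℕ) (hN : N ≠ 0) (hp : p.Prime) (hpN : p ∣ N) :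
    dedekindPsi (N * p) = p * dedekindPsi N := by
  unfold dedekindPsi
  have hset : (N * p).divisors.filter Squarefree = N.divisors.filter Squarefree := by
    ext d
    simp only [Finset.mem_filter, Nat.mem_divisors]
    constructor
    · rintro ⟨⟨hd, _⟩, hsq⟩
      refine ⟨⟨?_, hN⟩, hsq⟩
      have h2 : d ∣ N ^ 2 := by
        rw [pow_two]
        exact hd.trans (mul_dvd_mul_left N hpN)
      exact (hsq.dvd_pow_iff_dvd two_ne_zero).mp h2
    · rintro ⟨⟨hd, _⟩, hsq⟩
      exact ⟨⟨hd.mul_right p, mul_ne_zero hN hp.ne_zero⟩, hsq⟩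
  rw [hset, Finset.mul_sum]
  apply Finset.sum_congr rfl
  intro d hd
  simp only [Finset.mem_filter, Nat.mem_divisors] at hd
  rw [mul_comm N p, Nat.mul_div_assoc _ hd.1.1]

open ModularCurve in
theorem dedekindPsi_mul_of_not_dvd (N p : ℕ) (hN : N ≠ 0) (hp : p.Prime) (hpN : ¬ p ∣ N) :
    dedekindPsi (N * p) = (p + 1) * dedekindPsi N := by
  unfold dedekindPsi
  have hset : (N * p).divisors.filter Squarefree =
      N.divisors.filter Squarefree ∪ (N.divisors.filter Squarefree).image (fun d => p * d) := by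
    ext d
    simp only [Finset.mem_filter, Nat.mem_divisors, Finset.mem_union, Finset.mem_image]
    constructor
    · rintro ⟨⟨hd, _⟩, hsq⟩
      by_cases hpd : p ∣ d
      · right
        obtain ⟨d', rfl⟩ := hpd
        refine ⟨d', ⟨⟨?_, hN⟩, hsq.squarefree_of_dvd (dvd_mul_left _ _)⟩, rfl⟩
        rw [mul_comm N p] at hd
        exact Nat.dvd_of_mul_dvd_mul_left hp.pos hd
      · left
        refine ⟨⟨?_, hN⟩, hsq⟩
        have hcop : Nat.Coprime d p := ((Nat.Prime.coprime_iff_not_dvd hp).mpr hpd).symm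
        exact hcop.dvd_of_dvd_mul_right hd
    · rintro (⟨⟨hd, _⟩, hsq⟩ | ⟨d', ⟨⟨hd, _⟩, hsq⟩, rfl⟩)
      · exact ⟨⟨hd.mul_right p, mul_ne_zero hN hp.ne_zero⟩, hsq⟩
      · refine ⟨⟨?_, mul_ne_zero hN hp.ne_zero⟩, ?_⟩
        · rw [mul_comm N p]; exact mul_dvd_mul_left p hd
        · have hcop : Nat.Coprime p d' :=
            (Nat.Prime.coprime_iff_not_dvd hp).mpr (fun h => hpN (h.trans hd))
          exact (Nat.squarefree_mul hcop).mpr ⟨hp.squarefree, hsq⟩
  have hdisj : Disjoint (N.divisors.filter Squarefree)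
      ((N.divisors.filter Squarefree).image (fun d => p * d)) := by
    rw [Finset.disjoint_left]
    intro d hd hd'
    simp only [Finset.mem_filter, Nat.mem_divisors, Finset.mem_image] at hd hd'
    obtain ⟨d', _, rfl⟩ := hd'
    exact hpN ((dvd_mul_right p d').trans hd.1.1)
  rw [hset, Finset.sum_union hdisj, Finset.sum_image (fun a _ b _ h =>
    Nat.eq_of_mul_eq_mul_left hp.pos h), add_mul, one_mul, Finset.mul_sum]
  congr 1
  · apply Finset.sum_congr rfl
    intro d hd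
    simp only [Finset.mem_filter, Nat.mem_divisors] at hd
    rw [mul_comm N p, Nat.mul_div_assoc _ hd.1.1]
  · apply Finset.sum_congr rfl
    intro d hd
    rw [mul_comm N p, Nat.mul_div_mul_left _ _ hp.pos]

end PartC1

/-- S20-c1 -/
theorem index_Gamma0 (N : ℕ) [NeZero N] : (Gamma0 N).index = ModularCurve.dedekindPsi N := by
  have key : ∀ n : ℕ, n ≠ 0 → (Gamma0 n).index = ModularCurve.dedekindPsi n := by
    intro n
    induction n using induction_on_primes with
    | zero => intro h; exact absurd rfl h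
    | one =>
      intro _
      rw [ModularCurve.dedekindPsi_one]
      have : Gamma0 1 = ⊤ := by
        ext g
        simp only [Gamma0_mem, Subgroup.mem_top, iff_true]
        exact Subsingleton.elim _ _
      rw [this, Subgroup.index_top]
    | prime_mul p a hp ih =>
      intro hpa
      have ha : a ≠ 0 := fun h => hpa (by rw [h, mul_zero])
      have : NeZero a := ⟨ha⟩
      rw [mul_comm p a, PartC1.index_Gamma0_mul a p hp, ih ha]
      split_ifs with h
      · rw [PartC1.dedekindPsi_mul_of_dvd a p ha hp h]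
      · rw [PartC1.dedekindPsi_mul_of_not_dvd a p ha hp h]
  exact key N (NeZero.ne N)

end Fermat.Agent.S20
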