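import Fermat.Agent.S20.Defs
import Fermat.Agent.S21.PartF
import Fermat.Prelude.Def_ModularCurve_PeriodMap

set_option autoImplicit false

/-!
# S20, Part A : bound for the parabolic classes (refinement of S21 Part F)
-/

namespace Fermat.Agent.S20

open Fermat.Agent.S21 Fermat.Agent.S21.PartF
open scoped MatrixGroups

namespace PartA

variable {Γ : Subgroup SL(2, ℤ)}

lemma dd_pow (φ : Additive Γ →+ ℂ) (w : (SL(2, ℤ) ⧸ Γ) → ℂ) (g : SL(2, ℤ)) (m : ℕ)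
    (x : SL(2, ℤ) ⧸ Γ) :
    dd φ w (g ^ m) x = ∑ i ∈ Finset.range m, dd φ w g (g ^ i • x) := by
  induction m with
  | zero => simp [dd_one]
  | succ m ih =>
    rw [pow_succ', dd_mul, ih, Finset.sum_range_succ]
    ring

lemma trace_gam_T_pow (m : ℕ) (x : SL(2, ℤ) ⧸ Γ) (hx : ModularGroup.T ^ m • x = x) :
    (((gam Γ (ModularGroup.T ^ m) x : Γ) : SL(2, ℤ)) : Matrix (Fin 2) (Fin 2) ℤ).trace = 2 := by
  show (((ModularGroup.T ^ m • x).out⁻¹ * (ModularGroup.T ^ m * x.out) : SL(2, ℤ)) :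
    Matrix (Fin 2) (Fin 2) ℤ).trace = 2
  rw [hx, Matrix.SpecialLinearGroup.coe_mul, Matrix.trace_mul_comm,
    ← Matrix.SpecialLinearGroup.coe_mul, mul_inv_cancel_right]
  have := ModularGroup.coe_T_zpow (m : ℤ)
  rw [zpow_natCast] at this
  show (ModularGroup.T ^ m).1.trace = 2
  rw [this, Matrix.trace_fin_two_of]
  norm_num

lemma dd_T_pow_eq_zero {φ : Additive Γ →+ ℂ} (hφ : ModularCurve.Period.IsParabolicHom Γ φ)
    (w : (SL(2, ℤ) ⧸ Γ) → ℂ) (m : ℕ) (x : SL(2, ℤ) ⧸ Γ) (hx : ModularGroup.T ^ m • x = x) :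
    dd φ w (ModularGroup.T ^ m) x = 0 := by
  rw [dd, hφ _ (by rw [trace_gam_T_pow m x hx]; norm_num), hx]
  ring

lemma exists_pow_smul_eq [Finite (SL(2, ℤ) ⧸ Γ)] (g : SL(2, ℤ)) :
    ∃ m : ℕ, 0 < m ∧ ∀ x : SL(2, ℤ) ⧸ Γ, g ^ m • x = x := by
  classical
  have := Fintype.ofFinite (SL(2, ℤ) ⧸ Γ)
  refine ⟨orderOf (MulAction.toPermHom SL(2, ℤ) (SL(2, ℤ) ⧸ Γ) g), orderOf_pos _, fun x => ?_⟩
  have h := pow_orderOf_eq_one (MulAction.toPermHom SL(2, ℤ) (SL(2, ℤ) ⧸ Γ) g)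
  rw [← map_pow] at h
  have := congrArg (fun σ : Equiv.Perm (SL(2, ℤ) ⧸ Γ) => σ x) h
  simpa using this

variable [Fintype (SL(2, ℤ) ⧸ Γ)]

/-- `d(T)` of a parabolic class is orthogonal to the `T`-invariant functions. -/
lemma sum_mul_dd_T_eq_zero {φ : Additive Γ →+ ℂ} (hφ : ModularCurve.Period.IsParabolicHom Γ φ)
    (w : (SL(2, ℤ) ⧸ Γ) → ℂ) {l : (SL(2, ℤ) ⧸ Γ) → ℂ} (hl : l ∈ AT Γ) :
    ∑ x, l x * dd φ w ModularGroup.T x = 0 := by
  obtain ⟨m, hm, hmx⟩ := exists_pow_smul_eq (Γ := Γ) ModularGroup.T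
  have hl' : ∀ (i : ℕ) (x : SL(2, ℤ) ⧸ Γ), l (ModularGroup.T ^ i • x) = l x := by
    intro i
    induction i with
    | zero => intro x; simp
    | succ i ih => intro x; rw [pow_succ', mul_smul, hl, ih]
  have h1 : ∀ i : ℕ, ∑ x, l x * dd φ w ModularGroup.T x
      = ∑ x, l x * dd φ w ModularGroup.T (ModularGroup.T ^ i • x) := by
    intro i
    rw [← Equiv.sum_comp (MulAction.toPerm (ModularGroup.T ^ i))]
    refine Finset.sum_congr rfl fun x _ => ?_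
    rw [MulAction.toPerm_apply, hl']
  have h2 : (m : ℂ) * ∑ x, l x * dd φ w ModularGroup.T x = 0 := by
    calc (m : ℂ) * ∑ x, l x * dd φ w ModularGroup.T x
        = ∑ i ∈ Finset.range m, ∑ x, l x * dd φ w ModularGroup.T x := by
          rw [Finset.sum_const, Finset.card_range, nsmul_eq_mul]
      _ = ∑ i ∈ Finset.range m, ∑ x, l x * dd φ w ModularGroup.T (ModularGroup.T ^ i • x) :=
          Finset.sum_congr rfl fun i _ => h1 i
      _ = ∑ x, l x * dd φ w (ModularGroup.T ^ m) x := by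
          rw [Finset.sum_comm]
          refine Finset.sum_congr rfl fun x _ => ?_
          rw [dd_pow, Finset.mul_sum]
      _ = 0 := by
          refine Finset.sum_eq_zero fun x _ => ?_
          rw [dd_T_pow_eq_zero hφ w m x (hmx x), mul_zero]
  rcases mul_eq_zero.mp h2 with h | h
  · exact absurd (Nat.cast_eq_zero.mp h) hm.ne'
  · exact h

/-- the map `(a, b) ↦ (x ↦ b x - a (T x))`, which sends `(d(S), d(U))` to `d(T)`. -/
noncomputable def Theta (Γ : Subgroup SL(2, ℤ)) :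
    (AS Γ × AU Γ) →ₗ[ℂ] ((SL(2, ℤ) ⧸ Γ) → ℂ) where
  toFun p := fun x => (p.2 : (SL(2, ℤ) ⧸ Γ) → ℂ) x - (p.1 : (SL(2, ℤ) ⧸ Γ) → ℂ) (ModularGroup.T • x)
  map_add' p q := by
    funext x
    simp only [Prod.snd_add, Prod.fst_add, Submodule.coe_add, Pi.add_apply]
    ring
  map_smul' c p := by
    funext x
    simp only [Prod.smul_snd, Prod.smul_fst, Submodule.coe_smul, Pi.smul_apply, smul_eq_mul,
      RingHom.id_apply]
    ring

/-- the pairing with `T`-invariant functions. -/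
noncomputable def pair (Γ : Subgroup SL(2, ℤ)) [Fintype (SL(2, ℤ) ⧸ Γ)] :
    ((SL(2, ℤ) ⧸ Γ) → ℂ) →ₗ[ℂ] Module.Dual ℂ (AT Γ) where
  toFun u :=
    { toFun := fun l => ∑ x, (l : (SL(2, ℤ) ⧸ Γ) → ℂ) x * u x
      map_add' := by
        intro l l'
        simp only [Submodule.coe_add, Pi.add_apply, add_mul, Finset.sum_add_distrib]
      map_smul' := by
        intro c l
        simp only [Submodule.coe_smul, Pi.smul_apply, smul_eq_mul, RingHom.id_apply,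
          Finset.mul_sum, mul_assoc] }
  map_add' u v := by
    ext l
    simp only [LinearMap.coe_mk, AddHom.coe_mk, Pi.add_apply, mul_add, Finset.sum_add_distrib,
      LinearMap.add_apply]
  map_smul' c u := by
    ext l
    simp only [LinearMap.coe_mk, AddHom.coe_mk, Pi.smul_apply, smul_eq_mul, RingHom.id_apply,
      LinearMap.smul_apply, Finset.mul_sum]
    refine Finset.sum_congr rfl fun x _ => ?_
    ring

lemma pair_apply (u : (SL(2, ℤ) ⧸ Γ) → ℂ) (l : AT Γ) :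
    pair Γ u l = ∑ x, (l : (SL(2, ℤ) ⧸ Γ) → ℂ) x * u x := rfl

/-- `Ξ = pair ∘ Θ`. -/
noncomputable def Xi (Γ : Subgroup SL(2, ℤ)) [Fintype (SL(2, ℤ) ⧸ Γ)] :
    (AS Γ × AU Γ) →ₗ[ℂ] Module.Dual ℂ (AT Γ) := (pair Γ).comp (Theta Γ)

lemma Xi_apply (p : AS Γ × AU Γ) (l : AT Γ) :
    Xi Γ p l = ∑ x, (l : (SL(2, ℤ) ⧸ Γ) → ℂ) x *
      ((p.2 : (SL(2, ℤ) ⧸ Γ) → ℂ) x - (p.1 : (SL(2, ℤ) ⧸ Γ) → ℂ) (ModularGroup.T • x)) := rfl

/-- the coboundary `u - u ∘ S`. -/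
def cobS (hneg : -1 ∈ Γ) (u : (SL(2, ℤ) ⧸ Γ) → ℂ) : AS Γ :=
  ⟨fun x => u x - u (ModularGroup.S • x), by
    intro x
    have hSS : ModularGroup.S * ModularGroup.S = -1 := by decide
    have : ModularGroup.S • ModularGroup.S • x = x := by
      rw [← mul_smul, hSS, neg_one_smul_coset hneg]
    show u (ModularGroup.S • x) - u (ModularGroup.S • ModularGroup.S • x)
      + (u x - u (ModularGroup.S • x)) = 0
    rw [this]; ring⟩

/-- the coboundary `u - u ∘ U`. -/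
def cobU (hneg : -1 ∈ Γ) (u : (SL(2, ℤ) ⧸ Γ) → ℂ) : AU Γ :=
  ⟨fun x => u x - u (Umat • x), by
    intro x
    have hU : Umat * Umat * Umat = -1 := by decide
    have : Umat • Umat • Umat • x = x := by
      rw [← mul_smul, ← mul_smul, hU, neg_one_smul_coset hneg]
    show u (Umat • Umat • x) - u (Umat • Umat • Umat • x)
      + (u (Umat • x) - u (Umat • Umat • x)) + (u x - u (Umat • x)) = 0
    rw [this]; ring⟩

lemma invariant_of_sum_eq_zero [DecidableEq (SL(2, ℤ) ⧸ Γ)] (g : SL(2, ℤ))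
    (l : (SL(2, ℤ) ⧸ Γ) → ℂ)
    (h : ∀ u : (SL(2, ℤ) ⧸ Γ) → ℂ, ∑ x, l x * (u x - u (g • x)) = 0) (y : SL(2, ℤ) ⧸ Γ) :
    l (g • y) = l y := by
  have h1 := h (Pi.single (g • y) 1)
  simp only [mul_sub, Finset.sum_sub_distrib] at h1
  have h2 : ∑ x, l x * (Pi.single (g • y) (1 : ℂ) : (SL(2, ℤ) ⧸ Γ) → ℂ) x = l (g • y) := by
    simp [Pi.single_apply]
  have h3 : ∑ x, l x * (Pi.single (g • y) (1 : ℂ) : (SL(2, ℤ) ⧸ Γ) → ℂ) (g • x) = l y := by
    simp [Pi.single_apply]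
  rw [h2, h3] at h1
  linear_combination h1

lemma const_of_Xi [DecidableEq (SL(2, ℤ) ⧸ Γ)] (hneg : -1 ∈ Γ) (l : AT Γ)
    (h : ∀ p, Xi Γ p l = 0) (x : SL(2, ℤ) ⧸ Γ) :
    (l : (SL(2, ℤ) ⧸ Γ) → ℂ) x = (l : (SL(2, ℤ) ⧸ Γ) → ℂ) ((1 : SL(2, ℤ)) : SL(2, ℤ) ⧸ Γ) := by
  have hU : ∀ y, (l : (SL(2, ℤ) ⧸ Γ) → ℂ) (Umat • y) = (l : (SL(2, ℤ) ⧸ Γ) → ℂ) y := by
    refine invariant_of_sum_eq_zero Umat _ fun u => ?_
    have := h (0, cobU hneg u)
    rw [Xi_apply] at this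
    simpa [cobU] using this
  have hS : ∀ y, (l : (SL(2, ℤ) ⧸ Γ) → ℂ) (ModularGroup.S • y)
      = (l : (SL(2, ℤ) ⧸ Γ) → ℂ) y := by
    refine invariant_of_sum_eq_zero ModularGroup.S _ fun u => ?_
    have := h (cobS hneg u, 0)
    rw [Xi_apply] at this
    rw [← Equiv.sum_comp (MulAction.toPerm ModularGroup.T)]
    have h2 : ∀ x, (l : (SL(2, ℤ) ⧸ Γ) → ℂ) (ModularGroup.T • x)
      = (l : (SL(2, ℤ) ⧸ Γ) → ℂ) x := l.2
    simp only [MulAction.toPerm_apply, h2]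
    simp only [cobS, Submodule.coe_zero, Pi.zero_apply, zero_sub, mul_neg,
      Finset.sum_neg_distrib, neg_eq_zero] at this
    exact this
  refine (eq_zero_of_dd_eq_zero (0 : Additive Γ →+ ℂ) (l : (SL(2, ℤ) ⧸ Γ) → ℂ)
    (dd_eq_zero_of_S_U _ _ (fun y => ?_) (fun y => ?_))).2 x
  · simp [dd, hS]
  · simp [dd, hU]

lemma Xi_Psi_eq_zero (hneg : -1 ∈ Γ) {φ : Additive Γ →+ ℂ}
    (hφ : ModularCurve.Period.IsParabolicHom Γ φ) (w : (SL(2, ℤ) ⧸ Γ) → ℂ) :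
    Xi Γ (Psi hneg (φ, w)) = 0 := by
  ext l
  rw [Xi_apply, LinearMap.zero_apply, ← sum_mul_dd_T_eq_zero hφ w l.2]
  refine Finset.sum_congr rfl fun x _ => ?_
  have h := dd_mul φ w ModularGroup.S ModularGroup.T x
  show (l : (SL(2, ℤ) ⧸ Γ) → ℂ) x * (dd φ w Umat x - dd φ w ModularGroup.S (ModularGroup.T • x))
    = _
  rw [Umat, h]
  ring

lemma finrank_coann_le [DecidableEq (SL(2, ℤ) ⧸ Γ)] (hneg : -1 ∈ Γ) :
    Module.finrank ℂ (LinearMap.range (Xi Γ)).dualCoannihilator ≤ 1 := by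
  let ev : (LinearMap.range (Xi Γ)).dualCoannihilator →ₗ[ℂ] ℂ :=
    ((LinearMap.proj ((1 : SL(2, ℤ)) : SL(2, ℤ) ⧸ Γ)).comp (AT Γ).subtype).comp
      (LinearMap.range (Xi Γ)).dualCoannihilator.subtype
  have hinj : Function.Injective ev := by
    intro l l' hl
    have hl2 : ∀ (l : (LinearMap.range (Xi Γ)).dualCoannihilator) (p), Xi Γ p l.1 = 0 := by
      intro l p
      have := l.2
      rw [Submodule.mem_dualCoannihilator] at this
      exact this _ (LinearMap.mem_range_self _ p)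
    apply Subtype.ext
    apply Subtype.ext
    funext x
    rw [const_of_Xi hneg l.1 (hl2 l) x, const_of_Xi hneg l'.1 (hl2 l') x]
    exact hl
  have := LinearMap.finrank_le_finrank_of_injective hinj
  simpa using this

/-- `Ψ` restricted to parabolic classes. -/
noncomputable def PsiPar (hneg : -1 ∈ Γ) :
    (ModularCurve.Period.parabolicHoms ℂ Γ ℂ × ((SL(2, ℤ) ⧸ Γ) → ℂ)) →ₗ[ℂ] (AS Γ × AU Γ) :=
  (Psi hneg).comp
    (LinearMap.prodMap (ModularCurve.Period.parabolicHoms ℂ Γ ℂ).subtype LinearMap.id)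

lemma range_PsiPar_le (hneg : -1 ∈ Γ) :
    LinearMap.range (PsiPar hneg) ≤ LinearMap.ker (Xi Γ) := by
  rintro _ ⟨p, rfl⟩
  rw [LinearMap.mem_ker]
  exact Xi_Psi_eq_zero hneg p.1.2 p.2

omit [Fintype (SL(2, ℤ) ⧸ Γ)] in
lemma finrank_ker_PsiPar_le (hneg : -1 ∈ Γ) :
    Module.finrank ℂ (LinearMap.ker (PsiPar hneg)) ≤ 1 := by
  let ev : LinearMap.ker (PsiPar hneg) →ₗ[ℂ] ℂ :=
    ((LinearMap.proj ((1 : SL(2, ℤ)) : SL(2, ℤ) ⧸ Γ)).comp (LinearMap.snd ℂ _ _)).comp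
      (LinearMap.ker (PsiPar hneg)).subtype
  have hinj : Function.Injective ev := by
    intro p q hp
    have hmem : ∀ p : LinearMap.ker (PsiPar hneg),
        ((p.1.1 : Additive Γ →+ ℂ), p.1.2) ∈ LinearMap.ker (Psi hneg) := by
      intro p
      rw [LinearMap.mem_ker]
      exact LinearMap.mem_ker.mp p.2
    obtain ⟨h1, h2⟩ := mem_ker_Psi hneg _ (hmem p)
    obtain ⟨h1', h2'⟩ := mem_ker_Psi hneg _ (hmem q)
    apply Subtype.ext
    refine Prod.ext (Subtype.ext (h1.trans h1'.symm)) (funext fun x => ?_)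
    rw [h2 x, h2' x]
    exact hp
  have := LinearMap.finrank_le_finrank_of_injective hinj
  simpa using this

end PartA

section
variable {Γ : Subgroup SL(2, ℤ)} [Γ.FiniteIndex] [Fintype (SL(2, ℤ) ⧸ Γ)]
  [DecidableEq (SL(2, ℤ) ⧸ Γ)]

/-- S20-a (group theory, refinement of Part F): bound for the parabolic classes. -/
theorem finrank_parabolicHoms_le (hneg : -1 ∈ Γ) :
    Module.finrank ℂ (ModularCurve.Period.parabolicHoms ℂ Γ ℂ) + Fintype.card (SL(2, ℤ) ⧸ Γ)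
        + Module.finrank ℂ (AT Γ)
      ≤ Module.finrank ℂ (AS Γ) + Module.finrank ℂ (AU Γ) + 2 := by
  have := finiteDimensional_hom Γ
  have h1 := LinearMap.finrank_range_add_finrank_ker (PartA.PsiPar hneg)
  have h2 : Module.finrank ℂ (LinearMap.range (PartA.PsiPar hneg)) ≤
      Module.finrank ℂ (LinearMap.ker (PartA.Xi Γ)) :=
    Submodule.finrank_mono (PartA.range_PsiPar_le hneg)
  have h3 := PartA.finrank_ker_PsiPar_le hneg
  have h4 := LinearMap.finrank_range_add_finrank_ker (PartA.Xi Γ)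
  have h5 := Subspace.finrank_add_finrank_dualCoannihilator_eq (LinearMap.range (PartA.Xi Γ))
  have h6 := PartA.finrank_coann_le hneg
  rw [Module.finrank_prod, Module.finrank_fintype_fun_eq_card] at h1
  rw [Module.finrank_prod] at h4
  omega

end

end Fermat.Agent.S20
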