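import Fermat.Agent.S20.Defs
import Fermat.Agent.S21.PartA0
import Fermat.Agent.S21.PartG2

set_option autoImplicit false

/-!
# S20, Part B : constant terms of weight two forms
-/

namespace Fermat.Agent.S20

open Fermat.Agent.S21
open UpperHalfPlane ModularForm Filter CongruenceSubgroup
open scoped MatrixGroups Manifold Topology

namespace PartB

lemma exists_period (Γ : Subgroup SL(2, ℤ)) [Finite (SL(2, ℤ) ⧸ Γ)] :
    ∃ h : ℕ, 0 < h ∧ ∀ x : SL(2, ℤ) ⧸ Γ, (ModularGroup.T ^ h) • x = x := by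
  classical
  let σ := MulAction.toPermHom SL(2, ℤ) (SL(2, ℤ) ⧸ Γ) ModularGroup.T
  refine ⟨orderOf σ, orderOf_pos σ, fun x => ?_⟩
  have h1 : σ ^ orderOf σ = 1 := pow_orderOf_eq_one σ
  rw [← map_pow] at h1
  have := congrArg (fun e : Equiv.Perm (SL(2, ℤ) ⧸ Γ) => e x) h1
  simpa using this

lemma slash_T_zpow_apply (k : ℤ) (f : ℍ → ℂ) (n : ℤ) (z : ℍ) :
    (f ∣[k] (ModularGroup.T ^ n)) z = f ((n : ℝ) +ᵥ z) := by
  rw [SL_slash_apply, modular_T_zpow_smul]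
  have : denom (ModularGroup.T ^ n : SL(2, ℤ)) z = 1 := by
    rw [ModularGroup.denom_apply, ModularGroup.coe_T_zpow]
    simp
  rw [this]
  simp

variable {Γ : Subgroup SL(2, ℤ)}

lemma comp_vadd {k : ℤ} {f : ℍ → ℂ} (hf : ∀ γ ∈ Γ, f ∣[k] γ = f) (x : SL(2, ℤ) ⧸ Γ) (n : ℤ)
    (z : ℍ) : comp Γ k f x ((n : ℝ) +ᵥ z) = comp Γ k f ((ModularGroup.T ^ n)⁻¹ • x) z := by
  rw [← slash_T_zpow_apply k (comp Γ k f x) n z, comp_slash hf]

lemma exists_tendsto_comp [Finite (SL(2, ℤ) ⧸ Γ)] {k : ℤ} {f : ℍ → ℂ} (hf : IsMF Γ k f)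
    (x : SL(2, ℤ) ⧸ Γ) : ∃ a : ℂ, Tendsto (comp Γ k f x) atImInfty (𝓝 a) := by
  obtain ⟨h, hh, hper⟩ := exists_period Γ
  obtain ⟨a, -, ha, -⟩ := exists_isPrim_tendsto (hf.comp_holo x) hh (fun z => by
    have := comp_vadd hf.inv x (h : ℤ) z
    rw [zpow_natCast] at this
    have h2 : (ModularGroup.T ^ h)⁻¹ • x = x := by
      rw [inv_smul_eq_iff, hper]
    rw [h2] at this
    simpa using this) (hf.comp_bdd x)
  exact ⟨a, ha⟩

/-- the constant term of the component at `x` -/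
noncomputable def ct (Γ : Subgroup SL(2, ℤ)) (k : ℤ) (f : ℍ → ℂ) (x : SL(2, ℤ) ⧸ Γ) : ℂ :=
  limUnder atImInfty (comp Γ k f x)

lemma tendsto_ct [Finite (SL(2, ℤ) ⧸ Γ)] {k : ℤ} {f : ℍ → ℂ} (hf : IsMF Γ k f)
    (x : SL(2, ℤ) ⧸ Γ) : Tendsto (comp Γ k f x) atImInfty (𝓝 (ct Γ k f x)) := by
  obtain ⟨a, ha⟩ := exists_tendsto_comp hf x
  exact tendsto_nhds_limUnder ⟨a, ha⟩

/-- the constant term map -/
noncomputable def ctLin (Γ : Subgroup SL(2, ℤ)) [Finite (SL(2, ℤ) ⧸ Γ)] (k : ℤ) :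
    MF Γ k →ₗ[ℂ] (SL(2, ℤ) ⧸ Γ → ℂ) where
  toFun f := ct Γ k f.1
  map_add' f g := by
    funext x
    have h1 := (tendsto_ct f.2 x).add (tendsto_ct g.2 x)
    have h2 := tendsto_ct (f + g).2 x
    have h3 : comp Γ k (f + g : MF Γ k).1 x = fun z => comp Γ k f.1 x z + comp Γ k g.1 x z := by
      funext z
      exact congrFun (comp_add f.1 g.1 x) z
    rw [h3] at h2
    exact tendsto_nhds_unique h2 h1
  map_smul' c f := by
    funext x
    have h1 := (tendsto_ct f.2 x).const_mul c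
    have h2 := tendsto_ct (c • f).2 x
    have h3 : comp Γ k (c • f : MF Γ k).1 x = fun z => c * comp Γ k f.1 x z := by
      funext z
      exact congrFun (comp_smul c f.1 x) z
    rw [h3] at h2
    exact tendsto_nhds_unique h2 h1

lemma tendsto_vadd_atImInfty (r : ℝ) : Tendsto (fun z : ℍ => r +ᵥ z) atImInfty atImInfty := by
  rw [atImInfty, tendsto_comap_iff]
  have : (im ∘ fun z : ℍ => r +ᵥ z) = im := by
    funext z
    simp
  rw [this]
  exact tendsto_comap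

lemma ct_mem_AT [Finite (SL(2, ℤ) ⧸ Γ)] {k : ℤ} {f : ℍ → ℂ} (hf : IsMF Γ k f) :
    ct Γ k f ∈ AT Γ := by
  intro x
  have h1 := tendsto_ct hf (ModularGroup.T • x)
  have h2 := (tendsto_ct hf (ModularGroup.T • x)).comp (tendsto_vadd_atImInfty ((1 : ℤ) : ℝ))
  have h3 : (comp Γ k f (ModularGroup.T • x) ∘ fun z : ℍ => (((1 : ℤ) : ℝ)) +ᵥ z)
      = comp Γ k f x := by
    funext z
    have := comp_vadd hf.inv (ModularGroup.T • x) 1 z
    rw [zpow_one, inv_smul_smul] at this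
    exact this
  rw [h3] at h2
  exact tendsto_nhds_unique h2 (tendsto_ct hf x)

/-- the trace to level one -/
lemma isMF_top_sum_comp [Fintype (SL(2, ℤ) ⧸ Γ)] {k : ℤ} {f : ℍ → ℂ} (hf : IsMF Γ k f) :
    IsMF ⊤ k (∑ x, comp Γ k f x) := by
  have hinv : ∀ γ : SL(2, ℤ), (∑ x, comp Γ k f x) ∣[k] γ = ∑ x, comp Γ k f x := by
    intro γ
    rw [SlashAction.sum_slash]
    simp only [comp_slash hf.inv]
    exact Equiv.sum_comp (MulAction.toPerm γ⁻¹) (fun x => comp Γ k f x)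
  refine ⟨MDifferentiable.sum fun x _ => hf.comp_holo x, fun γ _ => hinv γ, fun g => ?_⟩
  rw [hinv g]
  exact Asymptotics.IsBigO.sum fun x _ => hf.comp_bdd x

lemma sum_ct_eq_zero [Fintype (SL(2, ℤ) ⧸ Γ)] {f : ℍ → ℂ} (hf : IsMF Γ 2 f) :
    ∑ x, ct Γ 2 f x = 0 := by
  have h0 := isMF_top_two_eq_zero (isMF_top_sum_comp hf)
  have h1 : Tendsto (fun z => ∑ x, comp Γ 2 f x z) atImInfty (𝓝 (∑ x, ct Γ 2 f x)) :=
    tendsto_finsetSum _ fun x _ => tendsto_ct hf x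
  have h2 : (fun z => ∑ x, comp Γ 2 f x z) = fun _ => (0 : ℂ) := by
    funext z
    have := congrFun h0 z
    simpa [Finset.sum_apply] using this
  rw [h2] at h1
  exact tendsto_nhds_unique h1 tendsto_const_nhds

lemma isCF_of_ct_eq_zero [Finite (SL(2, ℤ) ⧸ Γ)] {k : ℤ} {f : ℍ → ℂ} (hf : IsMF Γ k f)
    (h : ct Γ k f = 0) : IsCF Γ k f := by
  refine ⟨hf.holo, hf.inv, fun g => ?_⟩
  have h1 := tendsto_ct hf ((g⁻¹ : SL(2, ℤ)) : SL(2, ℤ) ⧸ Γ)
  rw [comp_mk hf.inv, inv_inv, h] at h1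
  exact h1

/-- the subspace of `T`-invariant functions with sum zero -/
def AT0 (Γ : Subgroup SL(2, ℤ)) [Fintype (SL(2, ℤ) ⧸ Γ)] : Submodule ℂ ((SL(2, ℤ) ⧸ Γ) → ℂ) where
  carrier := {u | u ∈ AT Γ ∧ ∑ x, u x = 0}
  add_mem' := by
    intro a b ha hb
    refine ⟨(AT Γ).add_mem ha.1 hb.1, ?_⟩
    simp only [Pi.add_apply, Finset.sum_add_distrib, ha.2, hb.2, add_zero]
  zero_mem' := ⟨(AT Γ).zero_mem, by simp⟩
  smul_mem' := by
    intro c a ha
    refine ⟨(AT Γ).smul_mem c ha.1, ?_⟩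
    simp only [Pi.smul_apply, smul_eq_mul, ← Finset.mul_sum, ha.2, mul_zero]

lemma finrank_AT0_lt [Fintype (SL(2, ℤ) ⧸ Γ)] :
    Module.finrank ℂ (AT0 Γ) < Module.finrank ℂ (AT Γ) := by
  apply Submodule.finrank_lt_finrank_of_lt
  refine lt_of_le_of_ne (fun u hu => hu.1) fun h => ?_
  have h1 : (fun _ => 1 : (SL(2, ℤ) ⧸ Γ) → ℂ) ∈ AT Γ := fun x => rfl
  rw [← h] at h1
  have h2 := h1.2
  simp only [Finset.sum_const, Finset.card_univ, nsmul_eq_mul, mul_one, Nat.cast_eq_zero] at h2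
  exact Fintype.card_ne_zero h2

end PartB

open PartB

section
variable {Γ : Subgroup SL(2, ℤ)} [Γ.FiniteIndex] [Fintype (SL(2, ℤ) ⧸ Γ)]
  [DecidableEq (SL(2, ℤ) ⧸ Γ)]

set_option linter.unusedSectionVars false in
/-- S20-b (constant terms): `M₂/S₂` embeds in the `T`-invariant functions of sum zero. -/
theorem finrank_MF_two_le (hfin : FiniteDimensional ℂ (MF Γ 2)) :
    Module.finrank ℂ (MF Γ 2) + 1 ≤ Module.finrank ℂ (CF Γ 2) + Module.finrank ℂ (AT Γ) := by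
  have h1 := LinearMap.finrank_range_add_finrank_ker (ctLin Γ 2)
  have h2 : Module.finrank ℂ (LinearMap.range (ctLin Γ 2)) ≤ Module.finrank ℂ (AT0 Γ) := by
    apply Submodule.finrank_mono
    rintro _ ⟨f, rfl⟩
    exact ⟨ct_mem_AT f.2, sum_ct_eq_zero f.2⟩
  have hle : CF Γ 2 ≤ MF Γ 2 := fun f hf => IsCF.isMF hf
  have : FiniteDimensional ℂ (CF Γ 2) := Submodule.finiteDimensional_of_le hle
  have h3 : Module.finrank ℂ (LinearMap.ker (ctLin Γ 2)) ≤ Module.finrank ℂ (CF Γ 2) := by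
    let φ : LinearMap.ker (ctLin Γ 2) →ₗ[ℂ] CF Γ 2 :=
      { toFun := fun f => ⟨f.1.1, isCF_of_ct_eq_zero f.1.2 f.2⟩
        map_add' := fun _ _ => rfl
        map_smul' := fun _ _ => rfl }
    apply LinearMap.finrank_le_finrank_of_injective (f := φ)
    intro f g hfg
    apply Subtype.ext
    apply Subtype.ext
    exact congrArg (fun u : CF Γ 2 => u.1) hfg
  have h4 := finrank_AT0_lt (Γ := Γ)
  omega

end

end Fermat.Agent.S20
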