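import Mathlib

/-!
# S20-c : dimensions of (anti-)invariant function spaces via traces of permutation operators
-/

set_option autoImplicit false

namespace Fermat.Agent.S20

namespace PermTrace

variable {X : Type*} [Fintype X] [DecidableEq X]

theorem trace_funLeft (σ : X → X) :
    LinearMap.trace ℂ (X → ℂ) (LinearMap.funLeft ℂ ℂ σ) = (Fintype.card {x // σ x = x} : ℂ) := by
  rw [LinearMap.trace_eq_matrix_trace ℂ (Pi.basisFun ℂ X), Matrix.trace]
  simp only [Matrix.diag_apply, LinearMap.toMatrix_apply, Pi.basisFun_apply, Pi.basisFun_repr,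
    LinearMap.funLeft_apply, Pi.single_apply]
  rw [Finset.sum_ite, Finset.sum_const_zero, add_zero, Finset.sum_const, nsmul_eq_mul, mul_one,
    Fintype.card_subtype]

/-- anti-invariants of an involution -/
theorem two_mul_finrank_anti (σ : X → X) (hσ : ∀ x, σ (σ x) = x) (A : Submodule ℂ (X → ℂ))
    (hA : ∀ u, u ∈ A ↔ ∀ x, u (σ x) + u x = 0) :
    2 * Module.finrank ℂ A + Fintype.card {x // σ x = x} = Fintype.card X := by
  let s : (X → ℂ) →ₗ[ℂ] (X → ℂ) := LinearMap.funLeft ℂ ℂ σ
  let P : (X → ℂ) →ₗ[ℂ] (X → ℂ) := (1 / 2 : ℂ) • (1 - s)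
  have hP : LinearMap.IsProj A P := by
    constructor
    · intro u
      rw [hA]
      intro x
      simp only [P, s, LinearMap.smul_apply, LinearMap.sub_apply, Module.End.one_apply,
        Pi.smul_apply, Pi.sub_apply, LinearMap.funLeft_apply, hσ, smul_eq_mul]
      ring
    · intro u hu
      rw [hA] at hu
      funext x
      simp only [P, s, LinearMap.smul_apply, LinearMap.sub_apply, Module.End.one_apply,
        Pi.smul_apply, Pi.sub_apply, LinearMap.funLeft_apply, smul_eq_mul]
      linear_combination (-1 / 2 : ℂ) * hu x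
  have h1 := hP.trace
  simp only [P, s, map_smul, map_sub, LinearMap.trace_one, trace_funLeft, smul_eq_mul,
    Module.finrank_fintype_fun_eq_card] at h1
  have h2 : (2 * Module.finrank ℂ A + Fintype.card {x // σ x = x} : ℂ) = Fintype.card X := by
    rw [← h1]; ring
  exact_mod_cast h2

/-- the kernel of `1 + τ + τ²` for a permutation of order dividing three -/
theorem three_mul_finrank_anti (τ : X → X) (hτ : ∀ x, τ (τ (τ x)) = x) (A : Submodule ℂ (X → ℂ))
    (hA : ∀ u, u ∈ A ↔ ∀ x, u (τ (τ x)) + u (τ x) + u x = 0) :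
    3 * Module.finrank ℂ A + 2 * Fintype.card {x // τ x = x} = 2 * Fintype.card X := by
  let t : (X → ℂ) →ₗ[ℂ] (X → ℂ) := LinearMap.funLeft ℂ ℂ τ
  let t2 : (X → ℂ) →ₗ[ℂ] (X → ℂ) := LinearMap.funLeft ℂ ℂ (fun x => τ (τ x))
  let P : (X → ℂ) →ₗ[ℂ] (X → ℂ) := 1 - (1 / 3 : ℂ) • (1 + t + t2)
  have hP : LinearMap.IsProj A P := by
    constructor
    · intro u
      rw [hA]
      intro x
      simp only [P, t, t2, LinearMap.smul_apply, LinearMap.sub_apply, LinearMap.add_apply,
        Module.End.one_apply, Pi.smul_apply, Pi.sub_apply, Pi.add_apply, LinearMap.funLeft_apply,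
        hτ, smul_eq_mul]
      ring
    · intro u hu
      rw [hA] at hu
      funext x
      simp only [P, t, t2, LinearMap.smul_apply, LinearMap.sub_apply, LinearMap.add_apply,
        Module.End.one_apply, Pi.smul_apply, Pi.sub_apply, Pi.add_apply, LinearMap.funLeft_apply,
        smul_eq_mul]
      linear_combination (-1 / 3 : ℂ) * hu x
  have hfix : Fintype.card {x // τ (τ x) = x} = Fintype.card {x // τ x = x} := by
    apply Fintype.card_congr
    apply Equiv.subtypeEquivRight
    intro x
    constructor
    · intro h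
      have := hτ x
      rw [h] at this
      exact this
    · intro h
      rw [h, h]
  have h1 := hP.trace
  simp only [P, t, t2, map_smul, map_sub, map_add, LinearMap.trace_one, trace_funLeft, smul_eq_mul,
    Module.finrank_fintype_fun_eq_card, hfix] at h1
  have h2 : (3 * Module.finrank ℂ A + 2 * Fintype.card {x // τ x = x} : ℂ)
      = 2 * Fintype.card X := by
    rw [← h1]; ring
  exact_mod_cast h2

end PermTrace

end Fermat.Agent.S20
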