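import Fermat.Agent.S20.P1
import Fermat.Agent.S20.PermTrace
import Fermat.Agent.S21.Defs
import Fermat.Prelude.Def_ModularCurve_GenusNumerics

/-!
# S20-c2, S20-c3 : fixed points of `S` and `U = S T` on `SL(2,ℤ) ⧸ Γ₀(N)`
-/

set_option autoImplicit false

namespace Fermat.Agent.S20

open Fermat.Agent.S21
open CongruenceSubgroup
open scoped MatrixGroups

namespace PartC2

open P1

/-- the matrix `[[x,-1],[1,0]]` with first column `(x,1)` -/
def colMat (x : ℤ) : SL(2, ℤ) := ⟨!![x, -1; 1, 0], by simp [Matrix.det_fin_two_of]⟩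

/-- the point `[x : 1]` -/
def pt (N : ℕ) (x : ZMod N) : SL(2, ℤ) ⧸ Gamma0 N := (colMat (x.val : ℤ) : SL(2, ℤ))

theorem pt_injective (N : ℕ) [NeZero N] : Function.Injective (pt N) := by
  intro x y h
  rw [pt, pt, coset_eq_iff] at h
  simp only [colMat] at h
  have h' : (x : ZMod N) - y = 0 := by
    simpa using h
  exact sub_eq_zero.mp h'

theorem pt_eq_iff (N : ℕ) [NeZero N] (x : ZMod N) (g : SL(2, ℤ)) :
    pt N x = (g : SL(2, ℤ) ⧸ Gamma0 N) ↔ x * (g 1 0 : ZMod N) = (g 0 0 : ZMod N) := by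
  rw [pt, coset_eq_iff]
  simp only [colMat]
  rw [← sub_eq_zero (b := ((g 0 0 : ℤ) : ZMod N))]
  simp

theorem S_smul_eq_iff (N : ℕ) (g : SL(2, ℤ)) :
    ModularGroup.S • (g : SL(2, ℤ) ⧸ Gamma0 N) = g ↔
      ((g 0 0 : ℤ) : ZMod N) ^ 2 + ((g 1 0 : ℤ) : ZMod N) ^ 2 = 0 := by
  rw [MulAction.Quotient.smul_coe, smul_eq_mul, coset_eq_iff]
  have h00 : (ModularGroup.S * g) 0 0 = - g 1 0 := by
    simp [ModularGroup.S, Matrix.SpecialLinearGroup.coe_mul, Matrix.mul_apply, Fin.sum_univ_two]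
  have h10 : (ModularGroup.S * g) 1 0 = g 0 0 := by
    simp [ModularGroup.S, Matrix.SpecialLinearGroup.coe_mul, Matrix.mul_apply, Fin.sum_univ_two]
  rw [h00, h10]
  push_cast
  constructor
  · intro h; linear_combination -h
  · intro h; linear_combination -h

theorem U_smul_eq_iff (N : ℕ) (g : SL(2, ℤ)) :
    Umat • (g : SL(2, ℤ) ⧸ Gamma0 N) = g ↔
      ((g 0 0 : ℤ) : ZMod N) ^ 2 + ((g 0 0 : ℤ) : ZMod N) * ((g 1 0 : ℤ) : ZMod N)
        + ((g 1 0 : ℤ) : ZMod N) ^ 2 = 0 := by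
  rw [MulAction.Quotient.smul_coe, smul_eq_mul, coset_eq_iff]
  have h00 : (Umat * g) 0 0 = - g 1 0 := by
    simp [Umat, ModularGroup.S, ModularGroup.T, Matrix.SpecialLinearGroup.coe_mul,
      Matrix.mul_apply, Fin.sum_univ_two]
  have h10 : (Umat * g) 1 0 = g 0 0 + g 1 0 := by
    simp [Umat, ModularGroup.S, ModularGroup.T, Matrix.SpecialLinearGroup.coe_mul,
      Matrix.mul_apply, Fin.sum_univ_two]
  rw [h00, h10]
  push_cast
  constructor
  · intro h; linear_combination -h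
  · intro h; linear_combination -h

theorem S_smul_pt_iff (N : ℕ) [NeZero N] (x : ZMod N) :
    ModularGroup.S • pt N x = pt N x ↔ x ^ 2 + 1 = 0 := by
  rw [pt, S_smul_eq_iff]
  simp [colMat]

theorem U_smul_pt_iff (N : ℕ) [NeZero N] (x : ZMod N) :
    Umat • pt N x = pt N x ↔ x ^ 2 + x + 1 = 0 := by
  rw [pt, U_smul_eq_iff]
  simp [colMat]

theorem det_cast (N : ℕ) (g : SL(2, ℤ)) :
    ((g 0 0 : ℤ) : ZMod N) * ((g 1 1 : ℤ) : ZMod N) - ((g 0 1 : ℤ) : ZMod N) * ((g 1 0 : ℤ) : ZMod N)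
      = 1 := by
  have := congrArg (Int.cast : ℤ → ZMod N) (det_eq g)
  push_cast at this
  exact this

theorem exists_pt_of_S_fixed (N : ℕ) [NeZero N] (q : SL(2, ℤ) ⧸ Gamma0 N)
    (hq : ModularGroup.S • q = q) : ∃ x, pt N x = q := by
  induction q using QuotientGroup.induction_on with
  | H g =>
    rw [S_smul_eq_iff] at hq
    have hdet := det_cast N g
    set a := ((g 0 0 : ℤ) : ZMod N)
    set b := ((g 0 1 : ℤ) : ZMod N)
    set c := ((g 1 0 : ℤ) : ZMod N)
    set d := ((g 1 1 : ℤ) : ZMod N)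
    refine ⟨a * (-(c * d + a * b) * d - b), ?_⟩
    rw [pt_eq_iff]
    linear_combination (-a * d ^ 2) * hq + a * (a * d + 1) * hdet

theorem exists_pt_of_U_fixed (N : ℕ) [NeZero N] (q : SL(2, ℤ) ⧸ Gamma0 N)
    (hq : Umat • q = q) : ∃ x, pt N x = q := by
  induction q using QuotientGroup.induction_on with
  | H g =>
    rw [U_smul_eq_iff] at hq
    have hdet := det_cast N g
    set a := ((g 0 0 : ℤ) : ZMod N)
    set b := ((g 0 1 : ℤ) : ZMod N)
    set c := ((g 1 0 : ℤ) : ZMod N)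
    set d := ((g 1 1 : ℤ) : ZMod N)
    refine ⟨a * (-((a + c) * d + a * b) * d - b), ?_⟩
    rw [pt_eq_iff]
    linear_combination (-a * d ^ 2) * hq + a * (a * d + 1) * hdet

theorem card_S_fixed (N : ℕ) [NeZero N] :
    Nat.card {q : SL(2, ℤ) ⧸ Gamma0 N // ModularGroup.S • q = q} = ModularCurve.nuTwo N := by
  unfold ModularCurve.nuTwo
  symm
  apply Nat.card_congr
  refine Equiv.ofBijective (fun x => ⟨pt N x.1, (S_smul_pt_iff N x.1).mpr x.2⟩) ⟨?_, ?_⟩
  · intro x y h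
    exact Subtype.ext (pt_injective N (congrArg Subtype.val h))
  · rintro ⟨q, hq⟩
    obtain ⟨x, rfl⟩ := exists_pt_of_S_fixed N q hq
    exact ⟨⟨x, (S_smul_pt_iff N x).mp hq⟩, rfl⟩

theorem card_U_fixed (N : ℕ) [NeZero N] :
    Nat.card {q : SL(2, ℤ) ⧸ Gamma0 N // Umat • q = q} = ModularCurve.nuThree N := by
  unfold ModularCurve.nuThree
  symm
  apply Nat.card_congr
  refine Equiv.ofBijective (fun x => ⟨pt N x.1, (U_smul_pt_iff N x.1).mpr x.2⟩) ⟨?_, ?_⟩
  · intro x y h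
    exact Subtype.ext (pt_injective N (congrArg Subtype.val h))
  · rintro ⟨q, hq⟩
    obtain ⟨x, rfl⟩ := exists_pt_of_U_fixed N q hq
    exact ⟨⟨x, (U_smul_pt_iff N x).mp hq⟩, rfl⟩

theorem neg_one_smul (N : ℕ) (q : SL(2, ℤ) ⧸ Gamma0 N) : (-1 : SL(2, ℤ)) • q = q := by
  induction q using QuotientGroup.induction_on with
  | H g =>
    rw [MulAction.Quotient.smul_coe, smul_eq_mul, coset_eq_iff]
    simp [mul_comm]

theorem S_S_smul (N : ℕ) (q : SL(2, ℤ) ⧸ Gamma0 N) :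
    ModularGroup.S • ModularGroup.S • q = q := by
  rw [smul_smul]
  have : ModularGroup.S * ModularGroup.S = -1 := by
    ext i j
    fin_cases i <;> fin_cases j <;>
      simp [ModularGroup.S, Matrix.SpecialLinearGroup.coe_mul, Matrix.mul_apply, Fin.sum_univ_two]
  rw [this, neg_one_smul]

theorem U_U_U_smul (N : ℕ) (q : SL(2, ℤ) ⧸ Gamma0 N) :
    Umat • Umat • Umat • q = q := by
  rw [smul_smul, smul_smul]
  have : Umat * Umat * Umat = -1 := by
    ext i j
    fin_cases i <;> fin_cases j <;>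
      simp [Umat, ModularGroup.S, ModularGroup.T, Matrix.SpecialLinearGroup.coe_mul,
        Matrix.mul_apply, Fin.sum_univ_two]
  rw [this, neg_one_smul]

end PartC2

/-- S20-c2 : fixed points of `S` -/
theorem two_mul_finrank_AS (N : ℕ) [NeZero N] :
    2 * Module.finrank ℂ (AS (Gamma0 N)) + ModularCurve.nuTwo N = (Gamma0 N).index := by
  classical
  let _ : Fintype (SL(2, ℤ) ⧸ Gamma0 N) := Fintype.ofFinite _
  have h := PermTrace.two_mul_finrank_anti (X := SL(2, ℤ) ⧸ Gamma0 N)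
    (fun q => ModularGroup.S • q) (PartC2.S_S_smul N) (AS (Gamma0 N)) (fun u => Iff.rfl)
  rw [← PartC2.card_S_fixed, Nat.card_eq_fintype_card, Subgroup.index, Nat.card_eq_fintype_card]
  exact h

/-- S20-c3 : fixed points of `U = S T` -/
theorem three_mul_finrank_AU (N : ℕ) [NeZero N] :
    3 * Module.finrank ℂ (AU (Gamma0 N)) + 2 * ModularCurve.nuThree N = 2 * (Gamma0 N).index := by
  classical
  let _ : Fintype (SL(2, ℤ) ⧸ Gamma0 N) := Fintype.ofFinite _
  have h := PermTrace.three_mul_finrank_anti (X := SL(2, ℤ) ⧸ Gamma0 N)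
    (fun q => Umat • q) (PartC2.U_U_U_smul N) (AU (Gamma0 N)) (fun u => Iff.rfl)
  rw [← PartC2.card_U_fixed, Nat.card_eq_fintype_card, Subgroup.index, Nat.card_eq_fintype_card]
  exact h

end Fermat.Agent.S20
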