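import Fermat.Agent.S21.Defs

set_option autoImplicit false

/-!
# S20 : shared definitions (verbatim from helper13's Plan20)
-/

namespace Fermat.Agent.S20

open Fermat.Agent.S21
open scoped MatrixGroups

/-- `T`-invariant functions on the coset space; its dimension is the number of cusps. -/
def AT (Γ : Subgroup SL(2, ℤ)) : Submodule ℂ ((SL(2, ℤ) ⧸ Γ) → ℂ) where
  carrier := {u | ∀ x, u (ModularGroup.T • x) = u x}
  add_mem' := by
    intro a b ha hb x
    simp only [Pi.add_apply, ha x, hb x]
  zero_mem' := by intro x; simp
  smul_mem' := by
    intro c a ha x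
    simp only [Pi.smul_apply, ha x]

end Fermat.Agent.S20
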