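import Mathlib

/-!
# S20-c : cosets of `Γ₀(N)` in `SL(2,ℤ)` : basic criteria
-/

set_option autoImplicit false

namespace Fermat.Agent.S20

open CongruenceSubgroup
open scoped MatrixGroups

namespace P1

theorem inv_mul_one_zero (g g' : SL(2, ℤ)) :
    (g⁻¹ * g') 1 0 = g 0 0 * g' 1 0 - g 1 0 * g' 0 0 := by
  rw [Matrix.SpecialLinearGroup.coe_mul, Matrix.SpecialLinearGroup.SL2_inv_expl]
  simp [Matrix.mul_apply, Fin.sum_univ_two]
  ring

theorem det_eq (g : SL(2, ℤ)) : g 0 0 * g 1 1 - g 0 1 * g 1 0 = 1 := by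
  have := g.det_coe
  rw [Matrix.det_fin_two] at this
  exact this

theorem coset_eq_iff (N : ℕ) (g g' : SL(2, ℤ)) :
    (g : SL(2, ℤ) ⧸ Gamma0 N) = g' ↔
      ((g 0 0 * g' 1 0 - g 1 0 * g' 0 0 : ℤ) : ZMod N) = 0 := by
  rw [QuotientGroup.eq, Gamma0_mem, inv_mul_one_zero]

/-- index of a subgroup from a complete invariant of its left cosets -/
theorem index_eq_card_range {K : Type*} [Group K] (H : Subgroup K) {α : Type*} (κ : K → α)
    (hκ : ∀ g g', κ g = κ g' ↔ g⁻¹ * g' ∈ H) : H.index = Nat.card (Set.range κ) := by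
  let f : K ⧸ H → Set.range κ := fun q =>
    Quotient.liftOn' q (fun g => (⟨κ g, g, rfl⟩ : Set.range κ)) (by
      intro a b hab
      apply Subtype.ext
      exact (hκ a b).mpr (QuotientGroup.leftRel_apply.mp hab))
  have hf : Function.Bijective f := by
    constructor
    · intro q q'
      induction q using QuotientGroup.induction_on
      induction q' using QuotientGroup.induction_on
      intro h
      have h' := congrArg Subtype.val h
      exact QuotientGroup.eq.mpr ((hκ _ _).mp h')
    · rintro ⟨_, g, rfl⟩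
      exact ⟨(g : K ⧸ H), rfl⟩
  exact Nat.card_congr (Equiv.ofBijective f hf)

end P1

end Fermat.Agent.S20
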