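import Mathlib
import Fermat.Agent.S20.Defs
import Fermat.Agent.S20.P1
import Fermat.Prelude.Def_ModularCurve_GenusNumerics

/-!
# S20-c4 : the number of `T`-orbits on `SL(2,ℤ) ⧸ Γ₀(N)` is `cuspCount N`
-/

set_option autoImplicit false

namespace Fermat.Agent.S20.PartC4


/-- Dimension of the space of functions invariant under a self-map `t`, in terms of a complete
invariant `κ` of the generated equivalence relation. -/
theorem finrank_invariant_eq_card_range {X α : Type*} [Finite X] (t : X → X) (κ : X → α)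
    (W : Submodule ℂ (X → ℂ)) (hW : ∀ u, u ∈ W ↔ ∀ x, u (t x) = u x)
    (ha : ∀ x, κ (t x) = κ x)
    (hb : ∀ x y, κ x = κ y → ∀ u ∈ W, u x = u y) :
    Module.finrank ℂ W = Nat.card (Set.range κ) := by
  classical
  have : Finite (Set.range κ) := Set.finite_range κ
  have : Fintype (Set.range κ) := Fintype.ofFinite _
  choose s hs using fun c : Set.range κ => c.2
  let Φ : (Set.range κ → ℂ) →ₗ[ℂ] W :=
    { toFun := fun v => ⟨fun x => v ⟨κ x, x, rfl⟩, (hW _).mpr fun x => by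
        have : (⟨κ (t x), t x, rfl⟩ : Set.range κ) = ⟨κ x, x, rfl⟩ := Subtype.ext (ha x)
        rw [this]⟩
      map_add' := fun v w => rfl
      map_smul' := fun c v => rfl }
  have hinj : Function.Injective Φ := by
    intro v w h
    funext c
    have h1 := congrFun (congrArg Subtype.val h) (s c)
    have h2 : (⟨κ (s c), s c, rfl⟩ : Set.range κ) = c := Subtype.ext (hs c)
    simpa [Φ, h2] using h1
  have hsurj : Function.Surjective Φ := by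
    intro u
    refine ⟨fun c => u.1 (s c), Subtype.ext ?_⟩
    funext x
    exact hb _ _ (hs ⟨κ x, x, rfl⟩) u.1 u.2
  have e := LinearEquiv.ofBijective Φ ⟨hinj, hsurj⟩
  rw [← e.finrank_eq, Module.finrank_fintype_fun_eq_card, Nat.card_eq_fintype_card]



theorem gcd_dvd_aux {N : ℕ} {a c a₂ c₂ n : ℤ} (h1 : IsCoprime a c)
    (h : (N : ℤ) ∣ (a + n * c) * c₂ - c * a₂) : Int.gcd c N ∣ Int.gcd c₂ N := by
  have hdc : ((Int.gcd c N : ℕ) : ℤ) ∣ c := Int.gcd_dvd_left _ _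
  have hdN : ((Int.gcd c N : ℕ) : ℤ) ∣ (N : ℤ) := Int.gcd_dvd_right _ _
  have h3 : ((Int.gcd c N : ℕ) : ℤ) ∣ (a + n * c) * c₂ := by
    have := dvd_add (hdN.trans h) (hdc.mul_right a₂)
    simpa using this
  have hcop : IsCoprime ((Int.gcd c N : ℕ) : ℤ) (a + n * c) := by
    have : IsCoprime (a + n * c) c := h1.add_mul_right_left n
    exact (this.of_isCoprime_of_dvd_right hdc).symm
  have h4 : ((Int.gcd c N : ℕ) : ℤ) ∣ c₂ := hcop.dvd_of_dvd_mul_left h3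
  exact Int.natCast_dvd_natCast.mp (Int.dvd_coe_gcd h4 hdN)

theorem gcd_eq_of_dvd {N : ℕ} {a c a₂ c₂ n : ℤ} (h1 : IsCoprime a c) (h2 : IsCoprime a₂ c₂)
    (h : (N : ℤ) ∣ (a + n * c) * c₂ - c * a₂) : Int.gcd c N = Int.gcd c₂ N := by
  apply Nat.dvd_antisymm (gcd_dvd_aux h1 h)
  apply gcd_dvd_aux (n := 0) (a := a₂) (a₂ := a + n * c) h2
  have : (a₂ + 0 * c₂) * c - c₂ * (a + n * c) = -((a + n * c) * c₂ - c * a₂) := by ring
  rw [this]
  exact (dvd_neg).mpr h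

theorem exists_iff {d M a c' a₂ c₂' : ℤ} (hd : d ≠ 0) (h1 : IsCoprime c' M)
    (h2 : IsCoprime c₂' M) :
    (∃ n : ℤ, d * M ∣ (a + n * (d * c')) * (d * c₂') - (d * c') * a₂) ↔
      ((Int.gcd d M : ℕ) : ℤ) ∣ a * c₂' - a₂ * c' := by
  have hrw : ∀ n : ℤ, (a + n * (d * c')) * (d * c₂') - (d * c') * a₂ =
      d * ((a * c₂' - a₂ * c') + n * d * c' * c₂') := by
    intro n; ring
  constructor
  · rintro ⟨n, hn⟩
    rw [hrw, mul_dvd_mul_iff_left hd] at hn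
    have heM : ((Int.gcd d M : ℕ) : ℤ) ∣ M := Int.gcd_dvd_right _ _
    have hed : ((Int.gcd d M : ℕ) : ℤ) ∣ d := Int.gcd_dvd_left _ _
    have h3 : ((Int.gcd d M : ℕ) : ℤ) ∣ n * d * c' * c₂' :=
      ((hed.mul_left n).mul_right c').mul_right c₂'
    exact (dvd_add_left h3).mp (heM.trans hn)
  · rintro ⟨k, hk⟩
    obtain ⟨u, v, huv⟩ := (h1.mul_left h2 : IsCoprime (c' * c₂') M)
    have hbez := Int.gcd_eq_gcd_ab d M
    refine ⟨-k * (Int.gcdA d M) * u, ?_⟩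
    rw [hrw, mul_dvd_mul_iff_left hd, hk]
    refine ⟨k * Int.gcdB d M + k * Int.gcdA d M * d * v, ?_⟩
    rw [hbez]
    linear_combination (-k * Int.gcdA d M * d) * huv

theorem zmod_iff {e : ℕ} {a c' a₂ c₂' : ℤ} (h1 : IsCoprime c' (e : ℤ))
    (h2 : IsCoprime c₂' (e : ℤ)) :
    ((e : ℤ) ∣ a * c₂' - a₂ * c') ↔
      ((a : ZMod e) * (c' : ZMod e)⁻¹) = (a₂ : ZMod e) * (c₂' : ZMod e)⁻¹ := by
  have i1 : (c' : ZMod e) * (c' : ZMod e)⁻¹ = 1 := ZMod.coe_int_mul_inv_eq_one h1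
  have i2 : (c₂' : ZMod e) * (c₂' : ZMod e)⁻¹ = 1 := ZMod.coe_int_mul_inv_eq_one h2
  rw [← ZMod.intCast_zmod_eq_zero_iff_dvd]
  push_cast
  constructor
  · intro h
    linear_combination ((c' : ZMod e)⁻¹ * (c₂' : ZMod e)⁻¹) * h - (a : ZMod e) * (c' : ZMod e)⁻¹ * i2
      + (a₂ : ZMod e) * (c₂' : ZMod e)⁻¹ * i1
  · intro h
    linear_combination ((c' : ZMod e) * (c₂' : ZMod e)) * h + (a : ZMod e) * (c₂' : ZMod e) * (-i1)
      + (a₂ : ZMod e) * (c' : ZMod e) * i2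

/-- `gcd (d, N/d)` -/
def ee (N d : ℕ) : ℕ := Nat.gcd d (N / d)

/-- second component of the cusp invariant -/
noncomputable def xx (N d : ℕ) (a c : ℤ) : ℕ :=
  ((a : ZMod (ee N d)) * ((c / (d : ℤ) : ℤ) : ZMod (ee N d))⁻¹).val

/-- the cusp invariant of a column `(a, c)` -/
noncomputable def inv0 (N : ℕ) (a c : ℤ) : ℕ × ℕ := (Int.gcd c N, xx N (Int.gcd c N) a c)

theorem ee_pos {N d : ℕ} (hN : N ≠ 0) (hd : d ∣ N) : 0 < ee N d := by
  have hd0 : 0 < d := Nat.pos_of_dvd_of_pos hd (Nat.pos_of_ne_zero hN)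
  exact Nat.gcd_pos_of_pos_left _ hd0

/-- data extracted from `gcd c N = d` -/
theorem decomp {N d : ℕ} (hN : N ≠ 0) {c : ℤ} (hd : Int.gcd c N = d) :
    d ∣ N ∧ c = (d : ℤ) * (c / (d : ℤ)) ∧ IsCoprime (c / (d : ℤ)) ((N / d : ℕ) : ℤ) := by
  subst hd
  have hdN : ((Int.gcd c N : ℕ) : ℤ) ∣ (N : ℤ) := Int.gcd_dvd_right _ _
  have hdc : ((Int.gcd c N : ℕ) : ℤ) ∣ c := Int.gcd_dvd_left _ _
  have hpos : 0 < Int.gcd c N := Int.gcd_pos_of_ne_zero_right _ (by exact_mod_cast hN)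
  refine ⟨Int.natCast_dvd_natCast.mp hdN, (Int.mul_ediv_cancel' hdc).symm, ?_⟩
  rw [Int.isCoprime_iff_gcd_eq_one, Int.natCast_div]
  exact Int.gcd_div_gcd_div_gcd hpos

theorem xx_eq_iff {N : ℕ} (hN : N ≠ 0) {a c a₂ c₂ : ℤ} (d : ℕ)
    (hd : Int.gcd c N = d) (hd₂ : Int.gcd c₂ N = d) :
    xx N d a c = xx N d a₂ c₂ ↔ ∃ n : ℤ, (N : ℤ) ∣ (a + n * c) * c₂ - c * a₂ := by
  obtain ⟨hdN, hc, hcop⟩ := decomp hN hd
  obtain ⟨-, hc₂, hcop₂⟩ := decomp hN hd₂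
  have hd0 : (d : ℤ) ≠ 0 := by
    have : 0 < d := Nat.pos_of_dvd_of_pos hdN (Nat.pos_of_ne_zero hN)
    exact_mod_cast this.ne'
  have : NeZero (ee N d) := ⟨(ee_pos hN hdN).ne'⟩
  have heM : ((ee N d : ℕ) : ℤ) ∣ ((N / d : ℕ) : ℤ) :=
    Int.natCast_dvd_natCast.mpr (Nat.gcd_dvd_right _ _)
  have hNd : (N : ℤ) = (d : ℤ) * ((N / d : ℕ) : ℤ) := by
    exact_mod_cast (Nat.mul_div_cancel' hdN).symm
  unfold xx
  rw [(ZMod.val_injective (ee N d)).eq_iff,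
    ← zmod_iff (hcop.of_isCoprime_of_dvd_right heM) (hcop₂.of_isCoprime_of_dvd_right heM)]
  have hgcd : ((ee N d : ℕ) : ℤ) = ((Int.gcd (d : ℤ) ((N / d : ℕ) : ℤ) : ℕ) : ℤ) := by
    rw [Int.gcd_natCast_natCast]; rfl
  rw [hgcd, ← exists_iff hd0 hcop hcop₂, ← hNd, ← hc, ← hc₂]

theorem inv0_eq_iff {N : ℕ} (hN : N ≠ 0) {a c a₂ c₂ : ℤ} (h1 : IsCoprime a c)
    (h2 : IsCoprime a₂ c₂) :
    inv0 N a c = inv0 N a₂ c₂ ↔ ∃ n : ℤ, (N : ℤ) ∣ (a + n * c) * c₂ - c * a₂ := by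
  constructor
  · intro h
    obtain ⟨hd, hv⟩ := Prod.ext_iff.mp h
    simp only [inv0] at hd hv
    rw [← hd] at hv
    exact (xx_eq_iff hN _ rfl hd.symm).mp hv
  · rintro ⟨n, hn⟩
    have hd := gcd_eq_of_dvd h1 h2 hn
    unfold inv0
    rw [← hd]
    exact Prod.ext rfl ((xx_eq_iff hN _ rfl hd.symm).mpr ⟨n, hn⟩)

/-- The finite set of cusp invariants. -/
def cuspSet (N : ℕ) : Finset (ℕ × ℕ) :=
  (N.divisors.sigma fun d => (Finset.range (ee N d)).filter fun x => (ee N d).Coprime x).map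
    (Equiv.sigmaEquivProd ℕ ℕ).toEmbedding

theorem card_cuspSet (N : ℕ) :
    (cuspSet N).card = ∑ d ∈ N.divisors, Nat.totient (Nat.gcd d (N / d)) := by
  unfold cuspSet
  rw [Finset.card_map, Finset.card_sigma]
  refine Finset.sum_congr rfl fun d _ => ?_
  rw [Nat.totient_eq_card_coprime]
  rfl

theorem mem_cuspSet {N : ℕ} (hN : N ≠ 0) (p : ℕ × ℕ) :
    p ∈ cuspSet N ↔ p.1 ∣ N ∧ p.2 < ee N p.1 ∧ (ee N p.1).Coprime p.2 := by
  obtain ⟨d, x⟩ := p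
  unfold cuspSet
  simp only [Finset.mem_map, Finset.mem_sigma, Nat.mem_divisors, Finset.mem_filter,
    Finset.mem_range, Equiv.coe_toEmbedding, Sigma.exists]
  constructor
  · rintro ⟨d', x', ⟨⟨h1, -⟩, h2, h3⟩, h4⟩
    simp only [Equiv.sigmaEquivProd_apply, Prod.mk.injEq] at h4
    obtain ⟨rfl, rfl⟩ := h4
    exact ⟨h1, h2, h3⟩
  · rintro ⟨h1, h2, h3⟩
    exact ⟨d, x, ⟨⟨h1, hN⟩, h2, h3⟩, rfl⟩

theorem inv0_mem_cuspSet {N : ℕ} (hN : N ≠ 0) {a c : ℤ} (h : IsCoprime a c) :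
    inv0 N a c ∈ cuspSet N := by
  obtain ⟨hdN, hc, hcop⟩ := decomp hN (rfl : Int.gcd c N = Int.gcd c N)
  set d := Int.gcd c N with hd
  have : NeZero (ee N d) := ⟨(ee_pos hN hdN).ne'⟩
  have heM : ((ee N d : ℕ) : ℤ) ∣ ((N / d : ℕ) : ℤ) :=
    Int.natCast_dvd_natCast.mpr (Nat.gcd_dvd_right _ _)
  have hed : ((ee N d : ℕ) : ℤ) ∣ c :=
    (Int.natCast_dvd_natCast.mpr (Nat.gcd_dvd_left _ _)).trans (Int.gcd_dvd_left _ _)
  rw [mem_cuspSet hN]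
  refine ⟨hdN, ZMod.val_lt _, ?_⟩
  have i1 := ZMod.coe_int_mul_inv_eq_one (hcop.of_isCoprime_of_dvd_right heM)
  have i2 := ZMod.coe_int_mul_inv_eq_one (h.of_isCoprime_of_dvd_right hed)
  have hu : IsUnit ((a : ZMod (ee N d)) * ((c / (d : ℤ) : ℤ) : ZMod (ee N d))⁻¹) :=
    (IsUnit.of_mul_eq_one _ i2).mul (IsUnit.of_mul_eq_one _ (by rw [mul_comm]; exact i1))
  have h2 : IsUnit (((xx N d a c : ℕ)) : ZMod (ee N d)) := by
    unfold xx
    rw [ZMod.natCast_zmod_val]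
    exact hu
  exact ((ZMod.isUnit_iff_coprime _ _).mp h2).symm

theorem exists_lift {d e x : ℕ} (hd : 0 < d) (hed : e ∣ d) (hx : e.Coprime x) :
    ∃ a : ℤ, IsCoprime a (d : ℤ) ∧ (a : ZMod e) = (x : ZMod e) := by
  have : NeZero d := ⟨hd.ne'⟩
  obtain ⟨y, hy⟩ := ZMod.unitsMap_surjective hed (ZMod.unitOfCoprime x hx.symm)
  refine ⟨((y : ZMod d).val : ℤ), ?_, ?_⟩
  · exact Nat.isCoprime_iff_coprime.mpr (ZMod.val_coe_unit_coprime y)
  · have h1 := congrArg (fun u : (ZMod e)ˣ => (u : ZMod e)) hy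
    simp only [ZMod.unitsMap_val, ZMod.coe_unitOfCoprime] at h1
    rw [← h1, ZMod.cast_eq_val, Int.cast_natCast]

theorem exists_inv0_eq {N : ℕ} (hN : N ≠ 0) {p : ℕ × ℕ} (hp : p ∈ cuspSet N) :
    ∃ a c : ℤ, IsCoprime a c ∧ inv0 N a c = p := by
  obtain ⟨d, x⟩ := p
  obtain ⟨hdN, hx, hcop⟩ := (mem_cuspSet hN _).mp hp
  simp only at hdN hx hcop
  have hd0 : 0 < d := Nat.pos_of_dvd_of_pos hdN (Nat.pos_of_ne_zero hN)
  obtain ⟨a, ha, hax⟩ := exists_lift hd0 (Nat.gcd_dvd_left d (N / d)) hcop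
  refine ⟨a, d, ha, ?_⟩
  have hg : Int.gcd (d : ℤ) (N : ℤ) = d := by
    rw [Int.gcd_natCast_natCast]
    exact Nat.gcd_eq_left hdN
  unfold inv0
  rw [hg]
  refine Prod.ext rfl ?_
  show xx N d a d = x
  unfold xx
  have hdd : ((d : ℤ) / (d : ℤ)) = 1 := Int.ediv_self (by exact_mod_cast hd0.ne')
  rw [hdd]
  have hax' : (a : ZMod (ee N d)) = (x : ZMod (ee N d)) := hax
  rw [hax']
  rw [Int.cast_one, ZMod.inv_one, mul_one, ZMod.val_natCast, Nat.mod_eq_of_lt hx]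


open CongruenceSubgroup
open scoped MatrixGroups

theorem isCoprime_col (g : SL(2, ℤ)) : IsCoprime (g 0 0) (g 1 0) :=
  ⟨g 1 1, -g 0 1, by have := P1.det_eq g; linear_combination this⟩

theorem T_zpow_mul_col (n : ℤ) (g : SL(2, ℤ)) :
    (ModularGroup.T ^ n * g) 0 0 = g 0 0 + n * g 1 0 ∧ (ModularGroup.T ^ n * g) 1 0 = g 1 0 := by
  rw [Matrix.SpecialLinearGroup.coe_mul, ModularGroup.coe_T_zpow]
  simp [Matrix.mul_apply, Fin.sum_univ_two]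

theorem inv0_col_eq_iff {N : ℕ} (hN : N ≠ 0) (g g' : SL(2, ℤ)) :
    inv0 N (g 0 0) (g 1 0) = inv0 N (g' 0 0) (g' 1 0) ↔
      ∃ n : ℤ, ((ModularGroup.T ^ n * g : SL(2, ℤ)) : SL(2, ℤ) ⧸ Gamma0 N) = g' := by
  rw [inv0_eq_iff hN (isCoprime_col g) (isCoprime_col g')]
  refine exists_congr fun n => ?_
  rw [P1.coset_eq_iff, (T_zpow_mul_col n g).1, (T_zpow_mul_col n g).2,
    ZMod.intCast_zmod_eq_zero_iff_dvd]

/-- the cusp invariant of a coset -/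
noncomputable def kappa (N : ℕ) (q : SL(2, ℤ) ⧸ Gamma0 N) : ℕ × ℕ :=
  inv0 N (q.out 0 0) (q.out 1 0)

theorem kappa_mk {N : ℕ} (hN : N ≠ 0) (g : SL(2, ℤ)) :
    kappa N (g : SL(2, ℤ) ⧸ Gamma0 N) = inv0 N (g 0 0) (g 1 0) := by
  unfold kappa
  rw [inv0_col_eq_iff hN]
  exact ⟨0, by simp⟩

theorem kappa_eq_iff {N : ℕ} (hN : N ≠ 0) (x y : SL(2, ℤ) ⧸ Gamma0 N) :
    kappa N x = kappa N y ↔ ∃ n : ℤ, ModularGroup.T ^ n • x = y := by
  induction x using QuotientGroup.induction_on with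
  | H g =>
    induction y using QuotientGroup.induction_on with
    | H g' =>
      rw [kappa_mk hN, kappa_mk hN, inv0_col_eq_iff hN]
      rfl

theorem range_kappa {N : ℕ} (hN : N ≠ 0) : Set.range (kappa N) = ↑(cuspSet N) := by
  ext p
  constructor
  · rintro ⟨q, rfl⟩
    exact inv0_mem_cuspSet hN (isCoprime_col _)
  · intro hp
    obtain ⟨a, c, ⟨u, v, huv⟩, rfl⟩ := exists_inv0_eq hN hp
    let g : SL(2, ℤ) := ⟨!![a, -v; c, u], by
      rw [Matrix.det_fin_two_of]; linear_combination huv⟩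
    refine ⟨(g : SL(2, ℤ) ⧸ Gamma0 N), ?_⟩
    rw [kappa_mk hN]
    rfl

theorem invariant_zpow {N : ℕ} (u : (SL(2, ℤ) ⧸ Gamma0 N) → ℂ)
    (hu : ∀ x, u (ModularGroup.T • x) = u x) (n : ℤ) (x : SL(2, ℤ) ⧸ Gamma0 N) :
    u (ModularGroup.T ^ n • x) = u x := by
  have hnat : ∀ (m : ℕ) (x : SL(2, ℤ) ⧸ Gamma0 N), u (ModularGroup.T ^ m • x) = u x := by
    intro m
    induction m with
    | zero => intro x; simp
    | succ m ih =>
      intro x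
      rw [pow_succ', mul_smul, hu, ih]
  obtain ⟨m, rfl | rfl⟩ := n.eq_nat_or_neg
  · rw [zpow_natCast]; exact hnat m x
  · have := hnat m (ModularGroup.T ^ (-(m : ℤ)) • x)
    rw [← this, ← zpow_natCast, smul_smul]
    simp

end Fermat.Agent.S20.PartC4

namespace Fermat.Agent.S20

open CongruenceSubgroup PartC4
open scoped MatrixGroups

/-- S20-c4 : number of `T`-orbits = number of cusps -/
theorem finrank_AT (N : ℕ) [NeZero N] :
    Module.finrank ℂ (AT (Gamma0 N)) = ModularCurve.cuspCount N := by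
  have hN : N ≠ 0 := NeZero.ne N
  have hfin : Finite (SL(2, ℤ) ⧸ Gamma0 N) := Subgroup.finite_quotient_of_finiteIndex
  rw [finrank_invariant_eq_card_range (fun x => ModularGroup.T • x) (kappa N) (AT (Gamma0 N))
    (fun u => Iff.rfl)
    (fun x => (kappa_eq_iff hN _ _).mpr ⟨-1, by simp⟩)
    (fun x y hxy u hu => by
      obtain ⟨n, rfl⟩ := (kappa_eq_iff hN x y).mp hxy
      exact (invariant_zpow u hu n x).symm),
    range_kappa hN, Nat.card_coe_set_eq, Set.ncard_coe_finset, card_cuspSet]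
  rfl

end Fermat.Agent.S20
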